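import Fermat.Agent.NEW.NewPart
import Fermat.Agent.S41.Pull.Defs
import Fermat.Agent.NEW.LinkConv
import Fermat.Agent.NEW.Normalize
import Fermat.Agent.NV.KappaLat
import Fermat.Prelude.Def_FreyPackage_LevelRaising

set_option autoImplicit false

/-!
# S41 (level raising): common definitions and the interfaces of all chapters

Notation of the blueprint (board #724): `q = q'`, `M = N * q`, `V = GES.VN N m`, `V' = GES.VN (N * q) m`,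
`L = S31.Lat N`, `L' = S31.Lat (N * q)`, `κ = NV.kappa`, `a_* = NEW.alphaV`, `b_* = NEW.betaV`.

* `aS N q m`, `bS N q m : V →+ V'`  : pull back of Kummer classes (defined in `S41/Pull/Defs.lean`, helper17);
* `inclG`, `conjG : Γ₀(Nq) →* Γ₀(N)` : the inclusion and `γ ↦ d γ d⁻¹`, `d = diag(q,1)`;
* `resL`, `cnjL : L →+ L'`, `rL (u₁,u₂) = resL u₁ + cnjL u₂`;
* `Good W N q p ℓ` : the good primes;
* `Vnew M q` : `ker (U_q ^ 2 - 1)` on `S₂(Γ₀(M))`;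
* the chapter outputs as `Prop`s: `E1`, `E2`, `E3`, `T2`, `T2c`, `E4`, `E5`, `E6`, `E8`.
-/

noncomputable section

namespace Fermat.Agent.S41

open AlgebraicCurve ModularCurve ModularCurve.Period CongruenceSubgroup ModularFormClass
open Fermat.Agent.S24 (Kb FN)
open Fermat.Agent.GES Fermat.Agent.NEW
open scoped MatrixGroups

/-! ### the two maps `Γ₀(Nq) → Γ₀(N)` and the lattice maps -/

section lattice

theorem dvd_of_mem_Gamma0 {M : ℕ} (g : Gamma0 M) : (M : ℤ) ∣ (g : SL(2, ℤ)) 1 0 :=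
  (ZMod.intCast_zmod_eq_zero_iff_dvd _ _).mp (Gamma0_mem.mp g.2)

theorem mem_Gamma0_of_dvd {M : ℕ} (g : SL(2, ℤ)) (h : (M : ℤ) ∣ g 1 0) : g ∈ Gamma0 M :=
  Gamma0_mem.mpr ((ZMod.intCast_zmod_eq_zero_iff_dvd _ _).mpr h)

variable (N q : ℕ)

/-- the inclusion `Γ₀(Nq) → Γ₀(N)`. -/
def inclG : Gamma0 (N * q) →* Gamma0 N :=
  Subgroup.inclusion (by
    intro g hg
    refine mem_Gamma0_of_dvd g (Dvd.dvd.trans ?_ (dvd_of_mem_Gamma0 ⟨g, hg⟩))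
    exact_mod_cast Dvd.intro q rfl)

@[simp] theorem coe_inclG (g : Gamma0 (N * q)) : ((inclG N q g : Gamma0 N) : SL(2, ℤ)) = g := rfl

variable [NeZero q]

/-- the matrix `d γ d⁻¹`, `d = diag(q,1)`. -/
def conjSL (g : Gamma0 (N * q)) : SL(2, ℤ) :=
  ⟨!![(g : SL(2, ℤ)) 0 0, q * (g : SL(2, ℤ)) 0 1; (g : SL(2, ℤ)) 1 0 / q, (g : SL(2, ℤ)) 1 1], by
    have hq : (q : ℤ) ∣ (g : SL(2, ℤ)) 1 0 :=
      Dvd.dvd.trans (by exact_mod_cast Dvd.intro_left N rfl) (dvd_of_mem_Gamma0 g)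
    obtain ⟨c, hc⟩ := hq
    have hq0 : (q : ℤ) ≠ 0 := by exact_mod_cast NeZero.ne q
    have hdet := (g : SL(2, ℤ)).det_coe
    rw [Matrix.det_fin_two] at hdet
    rw [Matrix.det_fin_two_of, hc, Int.mul_ediv_cancel_left _ hq0]
    rw [hc] at hdet
    linarith⟩

theorem conjSL_apply (g : Gamma0 (N * q)) :
    ((conjSL N q g : SL(2, ℤ)) : Matrix (Fin 2) (Fin 2) ℤ) =
      !![(g : SL(2, ℤ)) 0 0, q * (g : SL(2, ℤ)) 0 1; (g : SL(2, ℤ)) 1 0 / q, (g : SL(2, ℤ)) 1 1] :=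
  rfl

theorem q_mul_conjSL_10 (g : Gamma0 (N * q)) :
    (q : ℤ) * (conjSL N q g) 1 0 = (g : SL(2, ℤ)) 1 0 := by
  have hq : (q : ℤ) ∣ (g : SL(2, ℤ)) 1 0 :=
    Dvd.dvd.trans (by exact_mod_cast Dvd.intro_left N rfl) (dvd_of_mem_Gamma0 g)
  exact Int.mul_ediv_cancel' hq

theorem conjSL_mem (g : Gamma0 (N * q)) : conjSL N q g ∈ Gamma0 N := by
  refine mem_Gamma0_of_dvd _ ?_
  obtain ⟨c, hc⟩ := dvd_of_mem_Gamma0 g
  have hq0 : (q : ℤ) ≠ 0 := by exact_mod_cast NeZero.ne q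
  have h := q_mul_conjSL_10 N q g
  rw [hc] at h
  push_cast at h
  refine ⟨c, mul_left_cancel₀ hq0 ?_⟩
  rw [h]; ring

theorem conjSL_mul (g g' : Gamma0 (N * q)) :
    conjSL N q (g * g') = conjSL N q g * conjSL N q g' := by
  have hq0 : (q : ℤ) ≠ 0 := by exact_mod_cast NeZero.ne q
  have h1 := q_mul_conjSL_10 N q g
  have h2 := q_mul_conjSL_10 N q g'
  have h3 := q_mul_conjSL_10 N q (g * g')
  have e00 : ∀ x : Gamma0 (N * q), (conjSL N q x) 0 0 = (x : SL(2, ℤ)) 0 0 := fun _ => rfl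
  have e01 : ∀ x : Gamma0 (N * q), (conjSL N q x) 0 1 = q * (x : SL(2, ℤ)) 0 1 := fun _ => rfl
  have e11 : ∀ x : Gamma0 (N * q), (conjSL N q x) 1 1 = (x : SL(2, ℤ)) 1 1 := fun _ => rfl
  have m : ∀ i j, ((g * g' : Gamma0 (N * q)) : SL(2, ℤ)) i j =
      (g : SL(2, ℤ)) i 0 * (g' : SL(2, ℤ)) 0 j + (g : SL(2, ℤ)) i 1 * (g' : SL(2, ℤ)) 1 j := by
    intro i j
    rw [Subgroup.coe_mul, Matrix.SpecialLinearGroup.coe_mul, Matrix.mul_apply, Fin.sum_univ_two]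
  ext i j
  rw [Matrix.SpecialLinearGroup.coe_mul, Matrix.mul_apply, Fin.sum_univ_two]
  fin_cases i <;> fin_cases j
  · show (conjSL N q (g * g')) 0 0 = (conjSL N q g) 0 0 * (conjSL N q g') 0 0 +
      (conjSL N q g) 0 1 * (conjSL N q g') 1 0
    rw [e00, e00, e00, e01, m, ← h2]; ring
  · show (conjSL N q (g * g')) 0 1 = (conjSL N q g) 0 0 * (conjSL N q g') 0 1 +
      (conjSL N q g) 0 1 * (conjSL N q g') 1 1
    rw [e01, e00, e01, e01, e11, m]; ring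
  · show (conjSL N q (g * g')) 1 0 = (conjSL N q g) 1 0 * (conjSL N q g') 0 0 +
      (conjSL N q g) 1 1 * (conjSL N q g') 1 0
    apply mul_left_cancel₀ hq0
    rw [h3, e00, e11, m, ← h1, ← h2]; ring
  · show (conjSL N q (g * g')) 1 1 = (conjSL N q g) 1 0 * (conjSL N q g') 0 1 +
      (conjSL N q g) 1 1 * (conjSL N q g') 1 1
    rw [e11, e01, e11, e11, m, ← h1]; ring

/-- `γ ↦ d γ d⁻¹ : Γ₀(Nq) → Γ₀(N)`, `(a, b; c, d) ↦ (a, q b; c / q, d)`. -/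
def conjG : Gamma0 (N * q) →* Gamma0 N :=
  MonoidHom.mk' (fun g => ⟨conjSL N q g, conjSL_mem N q g⟩)
    (fun g g' => Subtype.ext (conjSL_mul N q g g'))

@[simp] theorem coe_conjG (g : Gamma0 (N * q)) :
    ((conjG N q g : Gamma0 N) : SL(2, ℤ)) = conjSL N q g := rfl

/-- restriction `L → L'`. -/
def resL : S31.Lat N →+ S31.Lat (N * q) where
  toFun u := ⟨u.1.comp (MonoidHom.toAdditive (inclG N q)), fun g hg => u.2 (inclG N q g) hg⟩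
  map_zero' := rfl
  map_add' _ _ := rfl

/-- `u ↦ u ∘ (d · d⁻¹) : L → L'`. -/
def cnjL : S31.Lat N →+ S31.Lat (N * q) where
  toFun u := ⟨u.1.comp (MonoidHom.toAdditive (conjG N q)), fun g hg => u.2 (conjG N q g) (by
    rw [← hg, coe_conjG, conjSL_apply, Matrix.trace_fin_two_of, Matrix.trace_fin_two])⟩
  map_zero' := rfl
  map_add' _ _ := rfl

omit [NeZero q] in
@[simp] theorem resL_apply (u : S31.Lat N) (g : Gamma0 (N * q)) :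
    (resL N q u).1 (Additive.ofMul g) = u.1 (Additive.ofMul (inclG N q g)) := rfl

@[simp] theorem cnjL_apply (u : S31.Lat N) (g : Gamma0 (N * q)) :
    (cnjL N q u).1 (Additive.ofMul g) = u.1 (Additive.ofMul (conjG N q g)) := rfl

/-- `r (u₁, u₂) = u₁|Γ₀(Nq) + u₂ (d · d⁻¹)`. -/
def rL (u₁ u₂ : S31.Lat N) : S31.Lat (N * q) := resL N q u₁ + cnjL N q u₂

end lattice

/-! ### good primes, the new space -/

/-- the good primes. -/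
def Good (W : WeierstrassCurve ℤ) (N q p : ℕ) (ℓ : ℕ) : Prop :=
  ℓ.Prime ∧ W.IsGoodPrimeFor ℓ ∧ ¬ ℓ ∣ N * q ∧ ℓ ≠ p

/-- `a_ℓ(E) mod p`. -/
def aP (W : WeierstrassCurve ℤ) (p : ℕ) (ℓ : ℕ) : ZMod p := ((W.apOfModel ℓ : ℤ) : ZMod p)

/-- `ker (U_q ^ 2 - 1)` on `S₂(Γ₀(M))`. -/
def Vnew (M q : ℕ) [NeZero M] (hqM : q ∣ M) : Submodule ℂ (CuspForm (Gamma0 M) 2) :=
  LinearMap.ker (CuspForm.heckeULin 2 hqM * CuspForm.heckeULin 2 hqM - 1)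

/-! ### the interfaces (outputs of the chapters) -/

section interfaces

variable (N q : ℕ) [NeZero N] [NeZero q]

/-- (E1), task T3. -/
def E1 (p : ℕ) [NeZero p] : Prop :=
  (∀ x : VN N p, alphaV N q p (aS N q p x) = (q + 1) • x) ∧
  (∀ x : VN N p, betaV N q p (bS N q p x) = (q + 1) • x) ∧
  (∀ x : VN N p, alphaV N q p (bS N q p x) = TV N p q x) ∧
  (∀ x : VN N p, betaV N q p (aS N q p x) = TV N p q x)

/-- (E2), task T3 (wanted for all `m = p ^ n`). -/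
def E2 (m : ℕ) [NeZero m] : Prop :=
  ∀ ℓ : ℕ, ℓ.Prime → ¬ ℓ ∣ N * q * m → ∀ x : VN N m,
    aS N q m (TV N m ℓ x) = TV (N * q) m ℓ (aS N q m x) ∧
    bS N q m (TV N m ℓ x) = TV (N * q) m ℓ (bS N q m x)

/-- (E3) = Ihara, tasks T1 + T1b. -/
def E3 (p : ℕ) : Prop :=
  ∀ u₁ u₂ : S31.Lat N, (∃ h : S31.Lat (N * q), rL N q u₁ u₂ = p • h) →
    ∀ ℓ : ℕ, ℓ.Prime → ¬ ℓ ∣ N →
      (∃ u' : S31.Lat N, S31.latT N ℓ u₁ - (ℓ + 1) • u₁ = p • u') ∧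
      (∃ u' : S31.Lat N, S31.latT N ℓ u₂ - (ℓ + 1) • u₂ = p • u')

/-- level maps, task T2 (wanted for all `m = p ^ n`). -/
def T2 (m : ℕ) [NeZero m] : Prop :=
  ∀ u : S31.Lat N,
    NV.kappa (N * q) m (resL N q u) = aS N q m (NV.kappa N m u) ∧
    NV.kappa (N * q) m (cnjL N q u) = bS N q m (NV.kappa N m u)

/-- corollary of T2 + E2: `r` commutes with the Hecke operators, task T2. -/
def T2c (p : ℕ) : Prop :=
  ∀ ℓ : ℕ, ℓ.Prime → ¬ ℓ ∣ N * q * p → ∀ u : S31.Lat N,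
    resL N q (S31.latT N ℓ u) = S31.latT (N * q) ℓ (resL N q u) ∧
    cnjL N q (S31.latT N ℓ u) = S31.latT (N * q) ℓ (cnjL N q u)

/-- (E4) = the pairing, task T4'. -/
def E4 (p : ℕ) [NeZero p] : Prop :=
  ∃ e : VN (N * q) p →+ VN (N * q) p →+ ZMod p,
    (∀ y, y ≠ 0 → ∃ z, e y z ≠ 0) ∧
    (∀ y, alphaV N q p y = 0 → ∀ u, e y (aS N q p u) = 0) ∧
    (∀ y, betaV N q p y = 0 → ∀ u, e y (bS N q p u) = 0) ∧
    (∀ ℓ : ℕ, ℓ.Prime → ¬ ℓ ∣ N * q * p → ∀ y z,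
      e (TV (N * q) p ℓ y) z = e y (TV (N * q) p ℓ z))

/-- (E5), task T5. -/
def E5 (W : WeierstrassCurve ℤ) (p : ℕ) [NeZero p] : Prop :=
  ∃ (x₀ : VN N p) (ε : ℤ), x₀ ≠ 0 ∧ (ε = 1 ∨ ε = -1) ∧
    (∀ ℓ, Good W N q p ℓ → TV N p ℓ x₀ = aP W p ℓ • x₀) ∧
    TV N p q x₀ = ((ε * (q + 1) : ℤ) : ZMod p) • x₀

omit [NeZero N] [NeZero q] in
/-- (E6), task T6. -/
def E6 (W : WeierstrassCurve ℤ) (p : ℕ) : Prop :=
  ∃ ℓ₀, Good W N q p ℓ₀ ∧ aP W p ℓ₀ ≠ ((ℓ₀ + 1 : ℕ) : ZMod p)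

/-- (E7) + (E8) = the link, tasks T8a + T8b. -/
def E8 (G : ℕ → Prop) : Prop :=
  ∀ P : FreeAlgebra ℤ ℕ,
    (∀ v ∈ Vnew (N * q) q (Dvd.intro_left N rfl),
      FreeAlgebra.lift ℤ (S31.heckeFam (N * q)) (mask G P) v = 0) →
    ∀ h : S31.Lat (N * q), ∃ n : ℤ, n ≠ 0 ∧ ∃ u₁ u₂ : S31.Lat N,
      n • (FreeAlgebra.lift ℤ (S31.latT (N * q)) (mask G P) h) = rL N q u₁ u₂

/-- the output of T7 (lattice algebra) = the hypothesis `hkill` of T8c. -/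
def HKill (G : ℕ → Prop) (a : ℕ → ℤ) (p : ℕ) : Prop :=
  ∀ P : FreeAlgebra ℤ ℕ,
    (∀ v ∈ Vnew (N * q) q (Dvd.intro_left N rfl),
      FreeAlgebra.lift ℤ (S31.heckeFam (N * q)) (mask G P) v = 0) →
    FreeAlgebra.lift ℤ (fun ℓ => (a ℓ : ZMod p)) (mask G P) = 0

end interfaces

end Fermat.Agent.S41
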