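import Fermat.Agent.S41.E3
import Fermat.Agent.S41.Defs
import Fermat.Agent.S41.CSPL.Main

set_option autoImplicit false

/-!
# S41 : (E3) in the shape of `S41.Defs`, from `CSPL.ihara`
-/

namespace Fermat.Agent.S41.E3

open CongruenceSubgroup Matrix.SpecialLinearGroup ModularCurve.Period
open Fermat.Agent.S16 Fermat.Agent.S31
open scoped MatrixGroups

theorem csp_of_ihara (N q p : ℕ) [NeZero N] (hq : q.Prime) (hqN : ¬ q ∣ N) (hp : p.Prime)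
    (hp2 : p ≠ 2) : CSPStatement N q p := by
  intro X₁ X₂ h₁ h₂ K g hg
  refine CSPL.ihara (F := ZMod p) (X₁ := X₁) (X₂ := X₂) hq hqN hp hp2 ⟨h₁.1, h₁.2⟩ ⟨h₂.1, h₂.2⟩
    (fun x => ?_) (fun g g' hg hg' hr => K g g' hg hg' hr) hg
  rw [nsmul_eq_mul, ZMod.natCast_self, zero_mul]

theorem e3_defs (N q p : ℕ) [NeZero N] [NeZero q] (hq : q.Prime) (hqN : ¬ q ∣ N) (hp : p.Prime)
    (hCSP : CSPStatement N q p) : Fermat.Agent.S41.E3 N q p := by
  rintro u₁ u₂ ⟨h, hh⟩ ℓ hℓ hℓN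
  have key := e3 N q p hq hqN hp hCSP u₁ u₂ (by
    intro g g' hr
    obtain ⟨r00, r01, r10, r11⟩ := hr
    have hg' : (N : ℤ) ∣ (g' : SL(2, ℤ)) 1 0 :=
      (ZMod.intCast_zmod_eq_zero_iff_dvd _ _).mp (Gamma0_mem.mp g'.2)
    have hmem : (g : SL(2, ℤ)) ∈ Gamma0 (N * q) := by
      rw [Gamma0_mem, ZMod.intCast_zmod_eq_zero_iff_dvd, r10]
      obtain ⟨c, hc⟩ := hg'
      rw [hc]
      exact ⟨c, by push_cast; ring⟩
    let γ : Gamma0 (N * q) := ⟨(g : SL(2, ℤ)), hmem⟩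
    have e1 : inclG N q γ = g := Subtype.ext rfl
    have hq0 : (q : ℤ) ≠ 0 := by exact_mod_cast hq.ne_zero
    have e2 : conjG N q γ = g' := by
      apply Subtype.ext
      rw [coe_conjG]
      ext i j
      rw [conjSL_apply]
      fin_cases i <;> fin_cases j
      · exact r00.symm
      · exact r01.symm
      · show (g : SL(2, ℤ)) 1 0 / (q : ℤ) = (g' : SL(2, ℤ)) 1 0
        rw [r10, Int.mul_ediv_cancel_left _ hq0]
      · exact r11.symm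
    have h1 := congrArg (fun φ : S31.Lat (N * q) => φ.1 (Additive.ofMul γ)) hh
    have h2 : (rL N q u₁ u₂).1 (Additive.ofMul γ) =
        u₁.1 (Additive.ofMul (inclG N q γ)) + u₂.1 (Additive.ofMul (conjG N q γ)) := rfl
    have h3 : (p • h).1 (Additive.ofMul γ) = p • h.1 (Additive.ofMul γ) := rfl
    change (rL N q u₁ u₂).1 (Additive.ofMul γ) = (p • h).1 (Additive.ofMul γ) at h1
    rw [h2, h3, e1, e2] at h1
    rw [h1]
    exact ⟨h.1 (Additive.ofMul γ), by rw [nsmul_eq_mul]⟩) ℓ hℓ hℓN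
  obtain ⟨⟨a, ha⟩, ⟨b, hb⟩⟩ := key
  refine ⟨⟨a, ?_⟩, ⟨b, ?_⟩⟩
  · have e : ((ℓ + 1 : ℕ) • u₁ : S31.Lat N) = ((ℓ : ℤ) + 1) • u₁ := by
      rw [← natCast_zsmul]; push_cast; rfl
    rw [e, ha, natCast_zsmul]
  · have e : ((ℓ + 1 : ℕ) • u₂ : S31.Lat N) = ((ℓ : ℤ) + 1) • u₂ := by
      rw [← natCast_zsmul]; push_cast; rfl
    rw [e, hb, natCast_zsmul]

/-- (E3), final form (depends only on `CSPL.ihara`). -/
theorem e3_final (N q p : ℕ) [NeZero N] [NeZero q] (hq : q.Prime) (hqN : ¬ q ∣ N) (hp : p.Prime)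
    (hp2 : p ≠ 2) : Fermat.Agent.S41.E3 N q p :=
  e3_defs N q p hq hqN hp (csp_of_ihara N q p hq hqN hp hp2)

end Fermat.Agent.S41.E3
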