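import Fermat.Agent.S41.Link.E8
import Fermat.Agent.S41.Forms.Solve
import Fermat.Agent.S41.Forms.Comm

/-!
# S41, (E8): final form
-/

set_option autoImplicit false

namespace Fermat.Agent.S41.Link

/-- (E8) for every set `G` of primes not dividing `N q`. -/
theorem e8_final (N q : ℕ) [NeZero N] [NeZero q] (hq : q.Prime) (hqN : ¬ q ∣ N)
    (G : ℕ → Prop) (hG : ∀ ℓ, G ℓ → ℓ.Prime ∧ ¬ ℓ ∣ N * q) : E8 N q G :=
  e8 N q G (fun P hP g => Forms.lift_mem_old G hG (Forms.forms_decomp_alt hq hqN) P hP g)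

/-- (E8) in the shape used by `S41.top`. -/
theorem e8_good (N q p : ℕ) [NeZero N] [NeZero q] (hq : q.Prime) (hqN : ¬ q ∣ N)
    (W : WeierstrassCurve ℤ) : E8 N q (Good W N q p) :=
  e8_final N q hq hqN _ (fun _ hG => ⟨hG.1, hG.2.2.1⟩)

end Fermat.Agent.S41.Link
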