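import Fermat.Agent.S41.Pull.Main

set_option autoImplicit false

/-!
# S41: `r` commutes with the good Hecke operators (corollary of `T2` at all levels `p ^ n` and `E2`)
-/

noncomputable section

namespace Fermat.Agent.S41

open Fermat.Agent.GES Fermat.Agent.NEW

/-- an element of the lattice which is divisible by all powers of `p` is zero. -/
theorem lat_eq_zero_of_forall_pow (M p : ℕ) (hp : 1 < p) (X : S31.Lat M)
    (h : ∀ n : ℕ, ∃ Y : S31.Lat M, X = (p ^ n) • Y) : X = 0 := by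
  apply Subtype.ext
  refine AddMonoidHom.ext fun γ => ?_
  show X.1 γ = 0
  by_contra hne
  have hdvd : ∀ n : ℕ, ((p : ℤ) ^ n) ∣ X.1 γ := by
    intro n
    obtain ⟨Y, hY⟩ := h n
    refine ⟨Y.1 γ, ?_⟩
    have h1 : X.1 γ = ((p ^ n) • Y).1 γ := by rw [← hY]
    have h2 : ((p ^ n) • Y).1 γ = (p ^ n) • (Y.1 γ) := rfl
    rw [h1, h2, nsmul_eq_mul]
    push_cast
    rfl
  have hfin : FiniteMultiplicity (p : ℤ) (X.1 γ) := by
    rw [Int.finiteMultiplicity_iff]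
    exact ⟨by simpa using hp.ne', hne⟩
  obtain ⟨n, hn⟩ := hfin
  exact hn (hdvd (n + 1))

theorem t2c_of_t2 (N q p : ℕ) [NeZero N] [NeZero q] [Fact p.Prime]
    (h : ∀ n : ℕ, T2 N q (p ^ n)) : T2c N q p := by
  have hp : p.Prime := Fact.out
  intro ℓ hℓ hℓM u
  have hℓNq : ¬ ℓ ∣ N * q := fun hd => hℓM (Dvd.dvd.mul_right hd p)
  have hℓN : ¬ ℓ ∣ N := fun hd => hℓNq (Dvd.dvd.mul_right hd q)
  have hℓp : ¬ ℓ ∣ p := fun hd => hℓM (Dvd.dvd.mul_left hd _)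
  have hℓn : ∀ n : ℕ, ¬ ℓ ∣ N * q * p ^ n := by
    intro n hd
    rcases (Nat.Prime.dvd_mul hℓ).mp hd with hd | hd
    · exact hℓNq hd
    · exact hℓp (hℓ.dvd_of_dvd_pow hd)
  constructor
  · rw [← sub_eq_zero]
    apply lat_eq_zero_of_forall_pow (N * q) p hp.one_lt
    intro n
    apply NV.kappa_ker (N * q) (p ^ n)
    rw [map_sub, (h n _).1, NV.kappa_latT N (p ^ n) ℓ hℓ hℓN, NV.kappa_latT (N * q) (p ^ n) ℓ hℓ hℓNq,
      (h n _).1, aS_TV N q (p ^ n) ℓ hℓ (hℓn n), sub_self]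
  · rw [← sub_eq_zero]
    apply lat_eq_zero_of_forall_pow (N * q) p hp.one_lt
    intro n
    apply NV.kappa_ker (N * q) (p ^ n)
    rw [map_sub, (h n _).2, NV.kappa_latT N (p ^ n) ℓ hℓ hℓN, NV.kappa_latT (N * q) (p ^ n) ℓ hℓ hℓNq,
      (h n _).2, bS_TV N q (p ^ n) ℓ hℓ (hℓn n), sub_self]

end Fermat.Agent.S41
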