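import Fermat.Agent.S29.Bridge
import Fermat.Agent.NV.Final
import Fermat.Prelude.Def_FLTPrelim_ModularRep

/-!
# S41, (E5): the eigensystem of `f` modulo `𝔪` occurs in `V_p(N)` itself
-/

set_option autoImplicit false

open scoped TensorProduct

namespace Fermat.Agent.S41.E5

open CuspForm CongruenceSubgroup ModularFormClass

section descent

variable {F K V : Type*} [Field F] [Field K] [Algebra F K] [AddCommGroup V] [Module F V]

/-- naturality of the coordinates with respect to a basis of `K` over `F`. -/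
theorem coord_baseChange {ι : Type*} [DecidableEq ι] (b : Module.Basis ι F K)
    (A : Module.End F V) (w : K ⊗[F] V) (j : ι) :
    TensorProduct.equivFinsuppOfBasisLeft b (A.baseChange K w) j =
      A (TensorProduct.equivFinsuppOfBasisLeft b w j) := by
  induction w using TensorProduct.induction_on with
  | zero => simp
  | tmul k x =>
    rw [LinearMap.baseChange_tmul, TensorProduct.equivFinsuppOfBasisLeft_apply_tmul_apply,
      TensorProduct.equivFinsuppOfBasisLeft_apply_tmul_apply, map_smul]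
  | add x y hx hy =>
    rw [map_add, map_add, map_add, Finsupp.add_apply, Finsupp.add_apply, hx, hy, map_add]

/-- a common kernel vector descends. -/
theorem exists_descent {I : Type*} (A : I → Module.End F V) (w : K ⊗[F] V) (hw : w ≠ 0)
    (h : ∀ i, (A i).baseChange K w = 0) : ∃ x : V, x ≠ 0 ∧ ∀ i, A i x = 0 := by
  classical
  let b := Module.Basis.ofVectorSpace F K
  have h1 : TensorProduct.equivFinsuppOfBasisLeft b w ≠ 0 := by
    intro h0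
    exact hw ((TensorProduct.equivFinsuppOfBasisLeft b).injective (by rw [h0, map_zero]))
  obtain ⟨j, hj⟩ := Finsupp.ne_iff.1 h1
  refine ⟨TensorProduct.equivFinsuppOfBasisLeft b w j, by simpa using hj, fun i => ?_⟩
  rw [← coord_baseChange, h i, map_zero, Finsupp.zero_apply]

end descent

/-- (E5), general form: an eigensystem with values in `ℤ` modulo `𝔪` occurs in `V_p(N)`. -/
theorem exists_eigenclass {N p : ℕ} [NeZero N] [NeZero p] (hp : p.Prime)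
    {f : CuspForm (Gamma0 N) 2} (hf : f.IsNormalizedEigenform)
    (𝔪 : Ideal (integralClosure ℤ ℂ)) (hmax : 𝔪.IsMaximal)
    (hpm : (p : integralClosure ℤ ℂ) ∈ 𝔪) (c : ℕ → ℤ) (S : Set ℕ)
    (hS : ∀ ℓ ∈ S, ℓ.Prime ∧ ¬ ℓ ∣ N * p ∧
      ∃ a : integralClosure ℤ ℂ, (a : ℂ) = qCoeff f ℓ ∧ a - (c ℓ : integralClosure ℤ ℂ) ∈ 𝔪) :
    ∃ x0 : GES.VN N p, x0 ≠ 0 ∧ ∀ ℓ ∈ S, GES.TV N p ℓ x0 = (c ℓ : ZMod p) • x0 := by
  haveI : Fact p.Prime := ⟨hp⟩
  let K : Type := integralClosure ℤ ℂ ⧸ 𝔪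
  letI : Field K := Ideal.Quotient.field 𝔪
  let φ : integralClosure ℤ ℂ →+* K := Ideal.Quotient.mk 𝔪
  have hpK : (p : K) = 0 := by
    have : φ (p : integralClosure ℤ ℂ) = 0 := Ideal.Quotient.eq_zero_iff_mem.2 hpm
    rwa [map_natCast] at this
  haveI : CharP K p := (CharP.charP_iff_prime_eq_zero hp).2 hpK
  letI : Algebra (ZMod p) K := ZMod.algebra K p
  let 𝒦 : S31.KummerSystem N p := (NV.kappaData N p).toKummerSystem
  obtain ⟨v, hv0, hv⟩ := S29.exists_vector 𝒦 hp hf φ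
  obtain ⟨w, hw0, hw⟩ := S29.exists_eigenvector_of_kappa (p := p) (W := GES.VN N p)
    (Module.finBasis ℤ 𝒦.H) (NV.kappa N p) (fun h hh => NV.kappa_ker N p h hh) v hv0
  have key : ∀ ℓ : S, (GES.TV N p ℓ - (c ℓ : ZMod p) • (1 : Module.End (ZMod p) (GES.VN N p))).baseChange K w = 0 := by
    rintro ⟨ℓ, hℓ⟩
    obtain ⟨h1, h2, a, ha, ham⟩ := hS ℓ hℓ
    have hgood : S30.Good N p ℓ := ⟨h1, h2⟩
    have h3 := hv ℓ
    rw [S29.matT, if_pos hgood] at h3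
    have h4 := hw (𝒦.T ℓ) (GES.TV N p ℓ) _
      (fun h => NV.kappa_latT N p ℓ h1 (fun hd => h2 (hd.mul_right p)) h) h3
    have h5 : S29.eigZ 𝒦 hf ℓ = a := Subtype.ext (by rw [S29.coe_eigZ 𝒦 hf h1 h2, ha])
    have h6 : φ (S29.eigZ 𝒦 hf ℓ) = algebraMap (ZMod p) K (c ℓ : ZMod p) := by
      rw [h5, map_intCast, ← map_intCast φ, ← sub_eq_zero, ← map_sub]
      exact Ideal.Quotient.eq_zero_iff_mem.2 ham
    rw [LinearMap.baseChange_sub, LinearMap.sub_apply, h4, h6, LinearMap.baseChange_smul,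
      LinearMap.smul_apply, sub_eq_zero]
    have h7 : (LinearMap.baseChange K (1 : Module.End (ZMod p) (GES.VN N p))) w = w := by
      have : (1 : Module.End (ZMod p) (GES.VN N p)) = LinearMap.id := rfl
      rw [this, LinearMap.baseChange_id, LinearMap.id_apply]
    rw [h7, algebraMap_smul]
  obtain ⟨x, hx0, hx⟩ := exists_descent (K := K) (fun ℓ : S => GES.TV N p ℓ - (c ℓ : ZMod p) • (1 : Module.End (ZMod p) (GES.VN N p))) w hw0 key
  refine ⟨x, hx0, fun ℓ hℓ => ?_⟩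
  have := hx ⟨ℓ, hℓ⟩
  simpa [sub_eq_zero] using this

/-- (E5) in the form used by the top file of S41. -/
theorem e5 (W : WeierstrassCurve ℤ) {p N q : ℕ} [NeZero N] [NeZero p] (hp : p.Prime)
    (hq : q.Prime) (hqN : ¬ q ∣ N) (hqp : q ≠ p)
    (f : CuspForm (Gamma0 N) 2) (𝔪 : Ideal (integralClosure ℤ ℂ))
    (hf : f.IsNormalizedEigenform) (hmax : 𝔪.IsMaximal) (hpm : (p : integralClosure ℤ ℂ) ∈ 𝔪)
    (hcong : ∀ ℓ : ℕ, ℓ.Prime → W.IsGoodPrimeFor ℓ → ¬ ℓ ∣ N → ℓ ≠ p →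
      ∃ a : integralClosure ℤ ℂ, (a : ℂ) = ModularFormClass.qCoeff f ℓ ∧
        a - ((W.apOfModel ℓ : ℤ) : integralClosure ℤ ℂ) ∈ 𝔪)
    (hLR : ∃ a : integralClosure ℤ ℂ, (a : ℂ) = ModularFormClass.qCoeff f q ∧
      a ^ 2 - ((q : integralClosure ℤ ℂ) + 1) ^ 2 ∈ 𝔪) :
    ∃ (ε : ℤ) (x0 : GES.VN N p), (ε = 1 ∨ ε = -1) ∧ x0 ≠ 0 ∧
      (∀ ℓ : ℕ, ℓ.Prime → W.IsGoodPrimeFor ℓ → ¬ ℓ ∣ N * q → ℓ ≠ p →
        GES.TV N p ℓ x0 = ((W.apOfModel ℓ : ℤ) : ZMod p) • x0) ∧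
      GES.TV N p q x0 = ((ε * ((q : ℤ) + 1) : ℤ) : ZMod p) • x0 := by
  classical
  obtain ⟨a, ha, haLR⟩ := hLR
  have hprime : 𝔪.IsPrime := hmax.isPrime
  obtain ⟨ε, hε, haε⟩ : ∃ ε : ℤ, (ε = 1 ∨ ε = -1) ∧
      a - ((ε * ((q : ℤ) + 1) : ℤ) : integralClosure ℤ ℂ) ∈ 𝔪 := by
    have h1 : (a - ((q : integralClosure ℤ ℂ) + 1)) * (a + ((q : integralClosure ℤ ℂ) + 1)) ∈ 𝔪 := by
      have : (a - ((q : integralClosure ℤ ℂ) + 1)) * (a + ((q : integralClosure ℤ ℂ) + 1)) =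
          a ^ 2 - ((q : integralClosure ℤ ℂ) + 1) ^ 2 := by ring
      rw [this]
      exact haLR
    rcases hprime.mem_or_mem h1 with h | h
    · refine ⟨1, Or.inl rfl, ?_⟩
      have : a - (((1 : ℤ) * ((q : ℤ) + 1) : ℤ) : integralClosure ℤ ℂ) =
          a - ((q : integralClosure ℤ ℂ) + 1) := by push_cast; ring
      rw [this]
      exact h
    · refine ⟨-1, Or.inr rfl, ?_⟩
      have : a - (((-1 : ℤ) * ((q : ℤ) + 1) : ℤ) : integralClosure ℤ ℂ) =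
          a + ((q : integralClosure ℤ ℂ) + 1) := by push_cast; ring
      rw [this]
      exact h
  let c : ℕ → ℤ := fun ℓ => if ℓ = q then ε * ((q : ℤ) + 1) else W.apOfModel ℓ
  let S : Set ℕ := {ℓ | ℓ = q ∨ (ℓ.Prime ∧ W.IsGoodPrimeFor ℓ ∧ ¬ ℓ ∣ N * q ∧ ℓ ≠ p)}
  have hnd : ∀ ℓ : ℕ, ℓ.Prime → ¬ ℓ ∣ N → ℓ ≠ p → ¬ ℓ ∣ N * p := by
    intro ℓ h1 h2 h3 h4
    rcases (Nat.Prime.dvd_mul h1).1 h4 with h | h
    · exact h2 h
    · exact h3 ((Nat.prime_dvd_prime_iff_eq h1 hp).1 h)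
  obtain ⟨x0, hx0, hx⟩ := exists_eigenclass hp hf 𝔪 hmax hpm c S (by
    rintro ℓ (rfl | ⟨h1, h2, h3, h4⟩)
    · refine ⟨hq, hnd _ hq hqN hqp, a, ha, ?_⟩
      simp only [c, if_true]
      exact haε
    · have hℓN : ¬ ℓ ∣ N := fun h => h3 (h.mul_right q)
      have hℓq : ℓ ≠ q := by
        rintro rfl
        exact h3 (Dvd.intro_left N rfl)
      obtain ⟨b, hb, hbm⟩ := hcong ℓ h1 h2 hℓN h4
      refine ⟨h1, hnd _ h1 hℓN h4, b, hb, ?_⟩
      simp only [c, if_neg hℓq]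
      exact hbm)
  refine ⟨ε, x0, hε, hx0, fun ℓ h1 h2 h3 h4 => ?_, ?_⟩
  · have hℓq : ℓ ≠ q := by
      rintro rfl
      exact h3 (Dvd.intro_left N rfl)
    have := hx ℓ (Or.inr ⟨h1, h2, h3, h4⟩)
    simpa only [c, if_neg hℓq] using this
  · have := hx q (Or.inl rfl)
    simpa only [c, if_true] using this

end Fermat.Agent.S41.E5
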