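import Fermat.Agent.S41.HKill
import Fermat.Agent.S41.Pull.Main
import Fermat.Agent.S41.E5
import Fermat.Agent.S41.Alg.Main

set_option autoImplicit false

/-!
# S41: the final assembly, from the chapter outputs which are still open
(`E3` = Ihara, `T2`, `T2c` = level maps, `E4` = pairing, `E6`, `E8` = link).
-/

open WeierstrassCurve
open scoped CongruenceSubgroup

namespace Fermat.Agent.S41

open Fermat.Agent.GES Fermat.Agent.NEW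

theorem e1_holds (N q p : ℕ) [NeZero N] [NeZero q] [NeZero p] (hq : q.Prime) (hqN : ¬ q ∣ N) :
    E1 N q p :=
  ⟨alphaV_aS N q p hq hqN, betaV_bS N q p hq hqN, alphaV_bS N q p, betaV_aS N q p hq hqN⟩

theorem e2_holds (N q m : ℕ) [NeZero N] [NeZero q] [NeZero m] : E2 N q m :=
  fun ℓ hℓ h x => ⟨aS_TV N q m ℓ hℓ h x, bS_TV N q m ℓ hℓ h x⟩

theorem top {W : WeierstrassCurve ℤ}
    {p N q' : ℕ} (hp : p.Prime) (hq' : q'.Prime) (hq'N : ¬ q' ∣ N) (hq'p : q' ≠ p)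
    (f : CuspForm (CongruenceSubgroup.Gamma0 N) 2) (𝔪 : Ideal (integralClosure ℤ ℂ))
    (hf : f.IsNormalizedEigenform) (hmax : 𝔪.IsMaximal) (hpm : (p : integralClosure ℤ ℂ) ∈ 𝔪)
    (hcong : ∀ ℓ : ℕ, ℓ.Prime → W.IsGoodPrimeFor ℓ → ¬ ℓ ∣ N → ℓ ≠ p →
      ∃ a : integralClosure ℤ ℂ, (a : ℂ) = ModularFormClass.qCoeff f ℓ ∧
        a - ((W.apOfModel ℓ : ℤ) : integralClosure ℤ ℂ) ∈ 𝔪)
    (hLR : ∃ a : integralClosure ℤ ℂ, (a : ℂ) = ModularFormClass.qCoeff f q' ∧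
      a ^ 2 - ((q' : integralClosure ℤ ℂ) + 1) ^ 2 ∈ 𝔪)
    [NeZero N] [NeZero q'] [Fact p.Prime]
    (h3 : E3 N q' p) (ht2 : T2 N q' p) (ht2c : T2c N q' p) (h4 : E4 N q' p) (h6 : E6 N q' W p)
    (h8 : E8 N q' (Good W N q' p)) :
    ∃ (g : CuspForm (CongruenceSubgroup.Gamma0 (N * q')) 2) (𝔪' : Ideal (integralClosure ℤ ℂ)),
      g.IsNormalizedEigenform ∧ 𝔪'.IsMaximal ∧ (p : integralClosure ℤ ℂ) ∈ 𝔪' ∧
      (∀ ℓ : ℕ, ℓ.Prime → W.IsGoodPrimeFor ℓ → ¬ ℓ ∣ N * q' → ℓ ≠ p →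
        ∃ a : integralClosure ℤ ℂ, (a : ℂ) = ModularFormClass.qCoeff g ℓ ∧
          a - ((W.apOfModel ℓ : ℤ) : integralClosure ℤ ℂ) ∈ 𝔪') ∧
      g.IsNewAt q' := by
  have h5 : E5 N q' W p := by
    obtain ⟨ε, x₀, hε, hx₀, hT, hq⟩ := E5.e5 W hp hq' hq'N hq'p f 𝔪 hf hmax hpm hcong hLR
    exact ⟨x₀, ε, hx₀, hε, fun ℓ hG => hT ℓ hG.1 hG.2.1 hG.2.2.1 hG.2.2.2, hq⟩
  have hk := hkill N q' p W (e1_holds N q' p hq' hq'N) (e2_holds N q' p) h3 ht2 ht2c h4 h5 h6 h8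
  obtain ⟨g, 𝔪', hg, hmax', hpm', hc, hnew⟩ :=
    Alg.exists_eigenform (N * q') p q' hp hq' (Dvd.intro_left N rfl) (Good W N q' p)
      (fun ℓ hG => ⟨hG.1, hG.2.2.1⟩) W.apOfModel (by
        intro P hP
        refine hk P fun v hv => hP v ?_
        have hv' := LinearMap.mem_ker.mp hv
        rw [LinearMap.sub_apply, Module.End.mul_apply, Module.End.one_apply, sub_eq_zero] at hv'
        exact hv')
  exact ⟨g, 𝔪', hg, hmax', hpm', fun ℓ h1 h2 h3 h4 => hc ℓ ⟨h1, h2, h3, h4⟩, hnew⟩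

end Fermat.Agent.S41
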