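import Fermat.Agent.S31.Lattice
import Fermat.Agent.S16.EisClass

set_option autoImplicit false

/-!
# S41 / T1b : packaging of Ihara's lemma (E3)

* `latT_sub_of_Gamma1` : a class `u ∈ Lat N` which vanishes mod `p` on `Γ₁(N)` satisfies
  `T_ℓ u - (ℓ + 1) u ∈ p Lat N` (`ℓ ∤ N`).
* `CSPStatement N q p` : the output of T1 (`S41.CSP.ihara`), with all definitions inlined.
* `e3` : (E3) of the blueprint.
-/

namespace Fermat.Agent.S41.E3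

open CongruenceSubgroup Matrix.SpecialLinearGroup ModularCurve.Period
open Fermat.Agent.S16 Fermat.Agent.S31
open scoped MatrixGroups

/-- a class all of whose values are divisible by `p` is `p` times a class. -/
theorem exists_smul_of_dvd (N p : ℕ) (hp : p ≠ 0) (ψ : Lat N)
    (h3 : ∀ γ, (p : ℤ) ∣ ψ.1 γ) : ∃ ψ' : Lat N, ψ = (p : ℤ) • ψ' := by
  have hm' : (p : ℤ) ≠ 0 := by exact_mod_cast hp
  let φ : Additive (Gamma0 N) →+ ℤ :=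
    AddMonoidHom.mk' (fun γ => ψ.1 γ / (p : ℤ)) (by
      intro a b
      rw [map_add]
      exact Int.add_ediv_of_dvd_left (h3 a))
  have hφ : ∀ γ, (p : ℤ) * φ γ = ψ.1 γ := fun γ => Int.mul_ediv_cancel' (h3 γ)
  have hpar : φ ∈ parabolicHoms ℤ (Gamma0 N) ℤ := by
    rw [mem_parabolicHoms_iff]
    intro γ hγ
    have h4 := (mem_parabolicHoms_iff.mp ψ.2) γ hγ
    have h5 := hφ (Additive.ofMul γ)
    rw [h4] at h5
    exact (mul_eq_zero.mp h5).resolve_left hm'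
  refine ⟨⟨φ, hpar⟩, ?_⟩
  apply Subtype.ext
  have h6 : (((p : ℤ) • (⟨φ, hpar⟩ : Lat N) : Lat N) : Additive (Gamma0 N) →+ ℤ) = (p : ℤ) • φ := rfl
  rw [h6]
  refine DFunLike.ext _ _ fun γ => ?_
  rw [AddMonoidHom.zsmul_apply, smul_eq_mul, hφ]

theorem mem_Gamma1_of_a00 (N : ℕ) (γ : Gamma0 N) (h : a00 N γ = 1) :
    (γ : SL(2, ℤ)) ∈ Gamma1 N := by
  rw [Gamma1_mem]
  have hc : ((((γ : SL(2, ℤ)) 1 0 : ℤ)) : ZMod N) = 0 := Gamma0_mem.mp γ.2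
  have ha : ((((γ : SL(2, ℤ)) 0 0 : ℤ)) : ZMod N) = 1 := h
  refine ⟨ha, ?_, hc⟩
  have hdet := (γ : SL(2, ℤ)).det_coe
  rw [Matrix.det_fin_two] at hdet
  have h2 := congrArg (Int.cast : ℤ → ZMod N) hdet
  push_cast at h2
  rw [ha, hc, mul_zero, sub_zero, one_mul] at h2
  exact h2

theorem dvd_sub_of_a00 (N p : ℕ) (u : Lat N)
    (h : ∀ γ : Gamma0 N, (γ : SL(2, ℤ)) ∈ Gamma1 N → (p : ℤ) ∣ u.1 (Additive.ofMul γ))
    (δ δ' : Gamma0 N) (hδ : a00 N δ = a00 N δ') :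
    (p : ℤ) ∣ u.1 (Additive.ofMul δ) - u.1 (Additive.ofMul δ') := by
  have h1 : a00 N (δ * δ'⁻¹) = 1 := by
    rw [map_mul, hδ, ← map_mul, mul_inv_cancel, map_one]
  have h2 := h _ (mem_Gamma1_of_a00 N _ h1)
  rw [ofMul_mul, map_add, ofMul_inv, map_neg] at h2
  rwa [sub_eq_add_neg]

theorem exists_a00_eq (N ℓ : ℕ) (hc : Nat.Coprime ℓ N) : ∃ g : Gamma0 N, a00 N g = (ℓ : ZMod N) := by
  have hc' : IsCoprime (ℓ : ℤ) (N : ℤ) := Nat.isCoprime_iff_coprime.mpr hc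
  obtain ⟨d, b, hdb⟩ := hc'
  refine ⟨⟨⟨!![(ℓ : ℤ), -b; (N : ℤ), d], ?_⟩, ?_⟩, ?_⟩
  · rw [Matrix.det_fin_two_of]; linarith
  · rw [Gamma0_mem]; simp
  · simp [a00]

theorem latT_sub_of_Gamma1 (N p ℓ : ℕ) [NeZero N] (hp : p ≠ 0) (hℓ : ℓ.Prime) (hℓN : ¬ ℓ ∣ N)
    (u : Lat N)
    (h : ∀ γ : Gamma0 N, (γ : SL(2, ℤ)) ∈ Gamma1 N → (p : ℤ) ∣ u.1 (Additive.ofMul γ)) :
    ∃ u' : Lat N, latT N ℓ u - ((ℓ : ℤ) + 1) • u = (p : ℤ) • u' := by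
  apply exists_smul_of_dvd N p hp
  intro γ'
  obtain ⟨γ, rfl⟩ : ∃ γ : Gamma0 N, Additive.ofMul γ = γ' := ⟨Additive.toMul γ', rfl⟩
  obtain ⟨gℓ, hgℓ⟩ := exists_a00_eq N ℓ ((Nat.Prime.coprime_iff_not_dvd hℓ).mpr hℓN)
  let c : HIdx N ℓ → Gamma0 N := fun x => match x.1 with
    | some _ => 1
    | none => gℓ
  have hc : ∀ x : HIdx N ℓ, a00 N (c x) = (eis_e00 ℓ x.1 : ZMod N) := by
    rintro ⟨x, hx⟩
    cases x with
    | some j => simp [c, eis_e00]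
    | none => simp [c, eis_e00, hgℓ]
  have key : ∀ x : HIdx N ℓ, (p : ℤ) ∣
      (u.1 (Additive.ofMul (c x)) + u.1 (Additive.ofMul γ)) -
        (u.1 (Additive.ofMul (hκ N hℓ γ x)) + u.1 (Additive.ofMul (c (hσ N hℓ γ x)))) := by
    intro x
    have h1 := dvd_sub_of_a00 N p u h (c x * γ) (hκ N hℓ γ x * c (hσ N hℓ γ x)) (by
      rw [map_mul, map_mul, hc, hc]
      exact eis_rel_zmod N hℓ γ x)
    rwa [ofMul_mul, map_add, ofMul_mul, map_add] at h1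
  have hsum := Finset.dvd_sum (s := Finset.univ) (fun x _ => key x)
  rw [Finset.sum_sub_distrib, Finset.sum_add_distrib, Finset.sum_add_distrib,
    Equiv.sum_comp (hσ N hℓ γ) (fun y => u.1 (Additive.ofMul (c y))), Finset.sum_const,
    Finset.card_univ, card_HIdx, if_neg hℓN] at hsum
  have e : (latT N ℓ u - ((ℓ : ℤ) + 1) • u).1 (Additive.ofMul γ) =
      (latT N ℓ u).1 (Additive.ofMul γ) - ((ℓ : ℤ) + 1) * u.1 (Additive.ofMul γ) := rfl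
  rw [e, latT_apply N hℓ hℓN]
  unfold heckeFun
  have h9 : ∑ x : HIdx N ℓ, u.1 (Additive.ofMul (hκ N hℓ γ x)) -
      ((ℓ : ℤ) + 1) * u.1 (Additive.ofMul γ) =
      -(∑ x, u.1 (Additive.ofMul (c x)) + (ℓ + 1) • u.1 (Additive.ofMul γ) -
        (∑ x, u.1 (Additive.ofMul (hκ N hℓ γ x)) + ∑ i, u.1 (Additive.ofMul (c i)))) := by
    rw [nsmul_eq_mul]
    push_cast
    ring
  rw [h9]
  exact (Int.dvd_neg).mpr hsum

/-- `g' = d g d⁻¹`, `d = diag(q, 1)`. -/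
def Rel (q : ℤ) (g g' : SL(2, ℤ)) : Prop :=
  g' 0 0 = g 0 0 ∧ g' 0 1 = q * g 0 1 ∧ g 1 0 = q * g' 1 0 ∧ g' 1 1 = g 1 1

/-- additive on `Γ₀(N)`, trivial on the elements of trace two. -/
def IsPar (N : ℕ) {F : Type} [AddCommGroup F] (X : SL(2, ℤ) → F) : Prop :=
  (∀ g h, g ∈ Gamma0 N → h ∈ Gamma0 N → X (g * h) = X g + X h) ∧
    ∀ g, g ∈ Gamma0 N → g 0 0 + g 1 1 = 2 → X g = 0

/-- the output of T1 (integer CSP-lite). -/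
def CSPStatement (N q p : ℕ) : Prop :=
  ∀ X₁ X₂ : SL(2, ℤ) → ZMod p, IsPar N X₁ → IsPar N X₂ →
    (∀ g g', g ∈ Gamma0 N → g' ∈ Gamma0 N → Rel q g g' → X₁ g + X₂ g' = 0) →
      ∀ g, g ∈ Gamma1 N → X₁ g = 0

theorem conj_entries (A g : SL(2, ℤ)) :
    (A * g * A⁻¹) 0 0 = (A 0 0 * g 0 0 + A 0 1 * g 1 0) * A 1 1 - (A 0 0 * g 0 1 + A 0 1 * g 1 1) * A 1 0 ∧
    (A * g * A⁻¹) 0 1 = -(A 0 0 * g 0 0 + A 0 1 * g 1 0) * A 0 1 + (A 0 0 * g 0 1 + A 0 1 * g 1 1) * A 0 0 ∧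
    (A * g * A⁻¹) 1 0 = (A 1 0 * g 0 0 + A 1 1 * g 1 0) * A 1 1 - (A 1 0 * g 0 1 + A 1 1 * g 1 1) * A 1 0 ∧
    (A * g * A⁻¹) 1 1 = -(A 1 0 * g 0 0 + A 1 1 * g 1 0) * A 0 1 + (A 1 0 * g 0 1 + A 1 1 * g 1 1) * A 0 0 := by
  refine ⟨?_, ?_, ?_, ?_⟩ <;>
  simp [Matrix.SpecialLinearGroup.coe_mul, Matrix.SpecialLinearGroup.coe_inv,
    Matrix.adjugate_fin_two, Matrix.mul_apply, Fin.sum_univ_two] <;> ring

theorem lat_conj (N : ℕ) (u : Lat N) (A g : Gamma0 N) :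
    u.1 (Additive.ofMul (A * g * A⁻¹)) = u.1 (Additive.ofMul g) := by
  rw [ofMul_mul, map_add, ofMul_mul, map_add, ofMul_inv, map_neg]
  abel

/-- the Atkin--Lehner swap of the Ihara kernel. -/
theorem swap (N q p : ℕ) (hqN : Nat.Coprime q N) (u₁ u₂ : Lat N)
    (h : ∀ g g' : Gamma0 N, Rel q (g : SL(2, ℤ)) (g' : SL(2, ℤ)) →
      (p : ℤ) ∣ u₁.1 (Additive.ofMul g) + u₂.1 (Additive.ofMul g'))
    (g g' : Gamma0 N) (hr : Rel q (g : SL(2, ℤ)) (g' : SL(2, ℤ))) :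
    (p : ℤ) ∣ u₂.1 (Additive.ofMul g) + u₁.1 (Additive.ofMul g') := by
  have hc' : IsCoprime (q : ℤ) (N : ℤ) := Nat.isCoprime_iff_coprime.mpr hqN
  obtain ⟨w, y', hwy⟩ := hc'
  -- `q w - N y = 1` with `y = - y'`
  let G1 : Gamma0 N := ⟨⟨!![1, -y'; (N : ℤ), (q : ℤ) * w], by
    rw [Matrix.det_fin_two_of]; linarith⟩, by rw [Gamma0_mem]; simp⟩
  let G2 : Gamma0 N := ⟨⟨!![(q : ℤ), -y'; (N : ℤ), w], by
    rw [Matrix.det_fin_two_of]; linarith⟩, by rw [Gamma0_mem]; simp⟩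
  have h1 := h (G1 * g' * G1⁻¹) (G2 * g * G2⁻¹) (by
    obtain ⟨r00, r01, r10, r11⟩ := hr
    obtain ⟨a00, a01, a10, a11⟩ := conj_entries (G1 : SL(2, ℤ)) (g' : SL(2, ℤ))
    obtain ⟨b00, b01, b10, b11⟩ := conj_entries (G2 : SL(2, ℤ)) (g : SL(2, ℤ))
    have e1 : ((G1 * g' * G1⁻¹ : Gamma0 N) : SL(2, ℤ)) =
        (G1 : SL(2, ℤ)) * (g' : SL(2, ℤ)) * (G1 : SL(2, ℤ))⁻¹ := rfl
    have e2 : ((G2 * g * G2⁻¹ : Gamma0 N) : SL(2, ℤ)) =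
        (G2 : SL(2, ℤ)) * (g : SL(2, ℤ)) * (G2 : SL(2, ℤ))⁻¹ := rfl
    have G100 : (G1 : SL(2, ℤ)) 0 0 = 1 := rfl
    have G101 : (G1 : SL(2, ℤ)) 0 1 = -y' := rfl
    have G110 : (G1 : SL(2, ℤ)) 1 0 = N := rfl
    have G111 : (G1 : SL(2, ℤ)) 1 1 = q * w := rfl
    have G200 : (G2 : SL(2, ℤ)) 0 0 = q := rfl
    have G201 : (G2 : SL(2, ℤ)) 0 1 = -y' := rfl
    have G210 : (G2 : SL(2, ℤ)) 1 0 = N := rfl
    have G211 : (G2 : SL(2, ℤ)) 1 1 = w := rfl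
    rw [e1, e2]
    refine ⟨?_, ?_, ?_, ?_⟩
    · rw [a00, b00, G100, G101, G110, G111, G200, G201, G210, G211, r00, r01, r10, r11]; ring
    · rw [a01, b01, G100, G101, G200, G201, r00, r01, r10, r11]; ring
    · rw [a10, b10, G110, G111, G210, G211, r00, r01, r10, r11]; ring
    · rw [a11, b11, G100, G101, G110, G111, G200, G201, G210, G211, r00, r01, r10, r11]; ring)
  rw [lat_conj, lat_conj] at h1
  rwa [add_comm]

/-- the reduction mod `p` of a class, extended by zero to `SL(2,ℤ)`. -/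
noncomputable def red (N p : ℕ) (u : Lat N) (g : SL(2, ℤ)) : ZMod p :=
  open scoped Classical in
  if hg : g ∈ Gamma0 N then ((u.1 (Additive.ofMul (⟨g, hg⟩ : Gamma0 N)) : ℤ) : ZMod p) else 0

theorem red_of_mem (N p : ℕ) (u : Lat N) (g : Gamma0 N) :
    red N p u (g : SL(2, ℤ)) = ((u.1 (Additive.ofMul g) : ℤ) : ZMod p) := by
  unfold red
  rw [dif_pos g.2]

theorem isPar_red (N p : ℕ) (u : Lat N) : IsPar N (red N p u) := by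
  constructor
  · intro g h hg hh
    have e1 := red_of_mem N p u (⟨g, hg⟩ * ⟨h, hh⟩ : Gamma0 N)
    have e2 := red_of_mem N p u ⟨g, hg⟩
    have e3 := red_of_mem N p u ⟨h, hh⟩
    rw [ofMul_mul, map_add] at e1
    push_cast at e1
    rw [← e2, ← e3] at e1
    exact e1
  · intro g hg htr
    have e2 := red_of_mem N p u ⟨g, hg⟩
    have h0 : u.1 (Additive.ofMul (⟨g, hg⟩ : Gamma0 N)) = 0 := by
      apply (mem_parabolicHoms_iff.mp u.2)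
      rw [Matrix.trace_fin_two]
      show (g 0 0 + g 1 1) ^ 2 = 4
      rw [htr]; norm_num
    rw [h0] at e2
    simpa using e2

theorem dvd_of_csp (N q p : ℕ) (hCSP : CSPStatement N q p) (u₁ u₂ : Lat N)
    (h : ∀ g g' : Gamma0 N, Rel q (g : SL(2, ℤ)) (g' : SL(2, ℤ)) →
      (p : ℤ) ∣ u₁.1 (Additive.ofMul g) + u₂.1 (Additive.ofMul g'))
    (γ : Gamma0 N) (hγ : (γ : SL(2, ℤ)) ∈ Gamma1 N) : (p : ℤ) ∣ u₁.1 (Additive.ofMul γ) := by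
  have h1 := hCSP (red N p u₁) (red N p u₂) (isPar_red N p u₁) (isPar_red N p u₂) (by
    intro g g' hg hg' hr
    have e1 := red_of_mem N p u₁ ⟨g, hg⟩
    have e2 := red_of_mem N p u₂ ⟨g', hg'⟩
    have h2 := h ⟨g, hg⟩ ⟨g', hg'⟩ hr
    rw [← ZMod.intCast_zmod_eq_zero_iff_dvd] at h2
    push_cast at h2
    rw [← e1, ← e2] at h2
    exact h2) (γ : SL(2, ℤ)) hγ
  rw [red_of_mem] at h1
  exact (ZMod.intCast_zmod_eq_zero_iff_dvd _ _).mp h1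

/-- **(E3)**. -/
theorem e3 (N q p : ℕ) [NeZero N] (hq : q.Prime) (hqN : ¬ q ∣ N) (hp : p.Prime)
    (hCSP : CSPStatement N q p) (u₁ u₂ : Lat N)
    (h : ∀ g g' : Gamma0 N, Rel q (g : SL(2, ℤ)) (g' : SL(2, ℤ)) →
      (p : ℤ) ∣ u₁.1 (Additive.ofMul g) + u₂.1 (Additive.ofMul g'))
    (ℓ : ℕ) (hℓ : ℓ.Prime) (hℓN : ¬ ℓ ∣ N) :
    (∃ u' : Lat N, latT N ℓ u₁ - ((ℓ : ℤ) + 1) • u₁ = (p : ℤ) • u') ∧
      ∃ u' : Lat N, latT N ℓ u₂ - ((ℓ : ℤ) + 1) • u₂ = (p : ℤ) • u' := by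
  refine ⟨latT_sub_of_Gamma1 N p ℓ hp.ne_zero hℓ hℓN u₁ (dvd_of_csp N q p hCSP u₁ u₂ h),
    latT_sub_of_Gamma1 N p ℓ hp.ne_zero hℓ hℓN u₂ (dvd_of_csp N q p hCSP u₂ u₁
      (swap N q p ((Nat.Prime.coprime_iff_not_dvd hq).mpr hqN) u₁ u₂ h))⟩

end Fermat.Agent.S41.E3
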