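import Fermat.Agent.S41.E5
import Fermat.Agent.S41.Defs

/-!
# S41, (E5) in the exact shape of `S41.Defs`
-/

set_option autoImplicit false

namespace Fermat.Agent.S41.E5

open CuspForm CongruenceSubgroup ModularFormClass

theorem e5_defs (W : WeierstrassCurve ℤ) {p N q : ℕ} [NeZero N] [NeZero q] [NeZero p]
    (hp : p.Prime) (hq : q.Prime) (hqN : ¬ q ∣ N) (hqp : q ≠ p)
    (f : CuspForm (Gamma0 N) 2) (𝔪 : Ideal (integralClosure ℤ ℂ))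
    (hf : f.IsNormalizedEigenform) (hmax : 𝔪.IsMaximal) (hpm : (p : integralClosure ℤ ℂ) ∈ 𝔪)
    (hcong : ∀ ℓ : ℕ, ℓ.Prime → W.IsGoodPrimeFor ℓ → ¬ ℓ ∣ N → ℓ ≠ p →
      ∃ a : integralClosure ℤ ℂ, (a : ℂ) = ModularFormClass.qCoeff f ℓ ∧
        a - ((W.apOfModel ℓ : ℤ) : integralClosure ℤ ℂ) ∈ 𝔪)
    (hLR : ∃ a : integralClosure ℤ ℂ, (a : ℂ) = ModularFormClass.qCoeff f q ∧
      a ^ 2 - ((q : integralClosure ℤ ℂ) + 1) ^ 2 ∈ 𝔪) :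
    Fermat.Agent.S41.E5 N q W p := by
  obtain ⟨ε, x0, hε, hx0, h1, h2⟩ := e5 W hp hq hqN hqp f 𝔪 hf hmax hpm hcong hLR
  exact ⟨x0, ε, hx0, hε, fun ℓ hℓ => h1 ℓ hℓ.1 hℓ.2.1 hℓ.2.2.1 hℓ.2.2.2, h2⟩

end Fermat.Agent.S41.E5
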