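import Fermat.Agent.NEW.Normalize
import Fermat.Agent.NEW.EigS2
import Fermat.Agent.S22

set_option autoImplicit false

/-!
# S41 / FinalForms : from a `TT`-stable subspace `Vnew` of `S₂(Γ₀(M))` on which `U_q ^ 2 = 1` and a mod `p` system of
eigenvalues compatible with all `ℤ`-relations between the good Hecke operators on `Vnew`, to a normalised eigenform.
-/

namespace Fermat.Agent.S41.FF

open CongruenceSubgroup ModularFormClass
open Fermat.Agent.S49 Fermat.Agent.NEW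

/-- the free algebra surjects onto the polynomial ring. -/
theorem freeToMv_surjective :
    Function.Surjective (FreeAlgebra.lift ℤ (MvPolynomial.X : ℕ → MvPolynomial ℕ ℤ)) := by
  intro r
  induction r using MvPolynomial.induction_on with
  | C c => exact ⟨algebraMap ℤ _ c, by simp⟩
  | add x y hx hy =>
    obtain ⟨a, rfl⟩ := hx
    obtain ⟨b, rfl⟩ := hy
    exact ⟨a + b, map_add _ _ _⟩
  | mul_X x n hx =>
    obtain ⟨a, rfl⟩ := hx
    exact ⟨a * FreeAlgebra.ι ℤ n, by rw [map_mul, FreeAlgebra.lift_ι_apply]⟩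

/-- lying over, in the form we need. -/
theorem exists_prime_over {R S k : Type*} [CommRing R] [CommRing S] [Field k] [Module.Finite ℤ S]
    (ψ : R →+* S) (lam : R →+* k) (hker : ∀ r, ψ r = 0 → lam r = 0) :
    ∃ Q : Ideal S, Q.IsPrime ∧ ∀ r, lam r = 0 → ψ r ∈ Q := by
  letI : Algebra R S := ψ.toAlgebra
  have h1 : Algebra.IsIntegral ℤ S := Algebra.IsIntegral.of_finite ℤ S
  have h2 : Algebra.IsIntegral R S :=
    ⟨fun x => (Algebra.IsIntegral.isIntegral (R := ℤ) x).tower_top⟩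
  have h3 : (RingHom.ker lam).IsPrime := RingHom.ker_isPrime _
  obtain ⟨Q, -, hQp, hQ⟩ := Ideal.exists_ideal_over_prime_of_isIntegral
    (RingHom.ker lam) (⊥ : Ideal S) (by
      intro r hr
      rw [Ideal.mem_comap, Ideal.mem_bot] at hr
      exact hker r hr)
  refine ⟨Q, hQp, fun r hr => ?_⟩
  have : r ∈ Q.comap (algebraMap R S) := by
    rw [hQ]; exact hr
  exact this

/-- a common eigenvector of the full Hecke algebra can be normalised. -/
theorem normalize_of_character (M : ℕ) [NeZero M] (v : CuspForm (Gamma0 M) 2) (hv0 : v ≠ 0)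
    (χ : TT M →+* ℂ) (hχ : ∀ t, phi M t v = χ t • v) :
    ∃ g : CuspForm (Gamma0 M) 2, g.IsNormalizedEigenform ∧
      (∀ (ℓ : ℕ) (hℓ : ℓ.Prime) (hℓM : ¬ ℓ ∣ M),
        qCoeff g ℓ = χ (CuspForm.heckeAlgebra.T hℓ hℓM (Set.notMem_empty ℓ))) ∧
      (∀ (ℓ : ℕ) (hℓ : ℓ.Prime) (hℓM : ℓ ∣ M),
        qCoeff g ℓ = χ (CuspForm.heckeAlgebra.U hℓ hℓM (Set.notMem_empty ℓ))) := by
  have hT : ∀ (ℓ : ℕ) (hℓ : ℓ.Prime) (hℓN : ¬ ℓ ∣ M) (n : ℕ),
      qCoeff v (ℓ * n) + (ℓ : ℂ) * (if ℓ ∣ n then qCoeff v (n / ℓ) else 0) =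
        χ (CuspForm.heckeAlgebra.T hℓ hℓN (Set.notMem_empty ℓ)) * qCoeff v n := by
    intro ℓ hℓ hℓN n
    rw [← qCoeff_heckeTLin hℓ hℓN, ← qCoeff_smul', ← hχ]
    rfl
  have hUU : ∀ (ℓ : ℕ) (hℓ : ℓ.Prime) (hℓN : ℓ ∣ M) (n : ℕ),
      qCoeff v (ℓ * n) =
        χ (CuspForm.heckeAlgebra.U hℓ hℓN (Set.notMem_empty ℓ)) * qCoeff v n := by
    intro ℓ hℓ hℓN n
    rw [← qCoeff_heckeULin hℓ hℓN, ← qCoeff_smul', ← hχ]
    rfl
  let e : ℕ → ℂ := fun ℓ => if ℓ ∣ M then 0 else (ℓ : ℂ)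
  have hrec : ∀ ℓ : ℕ, ℓ.Prime → ∃ lam : ℂ, ∀ n : ℕ,
      qCoeff v (ℓ * n) + e ℓ * (if ℓ ∣ n then qCoeff v (n / ℓ) else 0) = lam * qCoeff v n := by
    intro ℓ hℓ
    by_cases hℓN : ℓ ∣ M
    · refine ⟨χ (CuspForm.heckeAlgebra.U hℓ hℓN (Set.notMem_empty ℓ)), fun n => ?_⟩
      simp only [e, if_pos hℓN, zero_mul, add_zero]
      exact hUU ℓ hℓ hℓN n
    · refine ⟨χ (CuspForm.heckeAlgebra.T hℓ hℓN (Set.notMem_empty ℓ)), fun n => ?_⟩
      simp only [e, if_neg hℓN]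
      exact hT ℓ hℓ hℓN n
  have hc1 : qCoeff v 1 ≠ 0 := by
    intro h1
    apply hv0
    apply eq_zero_of_qCoeff
    intro n
    rcases Nat.eq_zero_or_pos n with rfl | hn
    · exact qCoeff_zero_index v
    · exact coeff_eq_zero_of_one_eq_zero hrec h1 n hn
  have hsys := normalized_eigensystem hrec hc1
  let f' : CuspForm (Gamma0 M) 2 := (qCoeff v 1)⁻¹ • v
  have hfc : ∀ n, qCoeff f' n = (qCoeff v 1)⁻¹ * qCoeff v n := fun n => qCoeff_smul' _ _ _
  have hnorm : f'.IsNormalizedEigenform := by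
    refine ⟨?_, ?_, ?_, ?_⟩
    · rw [hfc]; exact hsys.1
    · intro m n hmn
      rw [hfc, hfc, hfc]
      exact eigensystem_mul_of_coprime hsys m n hmn
    · intro p r hp hpN
      rw [hfc, hfc, hfc, hfc]
      have := eigensystem_prime_pow hsys p r hp
      simp only [e, if_neg hpN] at this
      exact this
    · intro p r hp hpN
      rw [hfc, hfc, hfc]
      have := eigensystem_prime_pow hsys p r hp
      simp only [e, if_pos hpN, zero_mul, sub_zero] at this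
      exact this
  refine ⟨f', hnorm, ?_, ?_⟩
  · intro ℓ hℓ hℓN
    rw [hfc]
    have h1 := hT ℓ hℓ hℓN 1
    have hnd : ¬ ℓ ∣ 1 := fun hd => hℓ.one_lt.ne' (Nat.dvd_one.mp hd)
    rw [if_neg hnd, mul_zero, add_zero, mul_one] at h1
    rw [h1]
    field_simp
  · intro ℓ hℓ hℓN
    rw [hfc]
    have h1 := hUU ℓ hℓ hℓN 1
    rw [mul_one] at h1
    rw [h1]
    field_simp

/-- the abstract Deligne-Serre step. -/
theorem ds_core {T V : Type*} [CommRing T] [Module.Finite ℤ T] [AddCommGroup V] [Module ℂ V]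
    (ρ : T →+* Module.End ℂ V) (p : ℕ) [Fact p.Prime] (τ : ℕ → T) (ab : ℕ → ZMod p)
    (hker : ∀ r : MvPolynomial ℕ ℤ, ρ (MvPolynomial.aeval τ r) = 0 → MvPolynomial.aeval ab r = 0) :
    ∃ (v : V) (χ : T →+* ℂ) (χ' : T →+* integralClosure ℤ ℂ) (𝔪' : Ideal (integralClosure ℤ ℂ)),
      v ≠ 0 ∧ (∀ t, ρ t v = χ t • v) ∧ (∀ t, (χ' t : ℂ) = χ t) ∧ 𝔪'.IsMaximal ∧
      (p : integralClosure ℤ ℂ) ∈ 𝔪' ∧
      ∀ (ℓ : ℕ) (z : ℤ), ab ℓ = (z : ZMod p) → χ' (τ ℓ) - (z : integralClosure ℤ ℂ) ∈ 𝔪' := by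
  let φ : (T ⧸ RingHom.ker ρ) →+* Module.End ℂ V := RingHom.kerLift ρ
  have hφ : Function.Injective φ := RingHom.kerLift_injective ρ
  have hfinTn : Module.Finite ℤ (T ⧸ RingHom.ker ρ) :=
    Module.Finite.of_surjective (Ideal.Quotient.mkₐ ℤ (RingHom.ker ρ)).toLinearMap
      Ideal.Quotient.mk_surjective
  let mk : T →+* (T ⧸ RingHom.ker ρ) := Ideal.Quotient.mk (RingHom.ker ρ)
  let ψ : MvPolynomial ℕ ℤ →+* (T ⧸ RingHom.ker ρ) :=
    mk.comp (MvPolynomial.aeval τ : MvPolynomial ℕ ℤ →ₐ[ℤ] T).toRingHom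
  let lam : MvPolynomial ℕ ℤ →+* ZMod p :=
    (MvPolynomial.aeval ab : MvPolynomial ℕ ℤ →ₐ[ℤ] ZMod p).toRingHom
  obtain ⟨Q, hQp, hQmem⟩ := exists_prime_over ψ lam (by
    intro r hr
    apply hker r
    exact Ideal.Quotient.eq_zero_iff_mem.1 hr)
  obtain ⟨v, χ, hv0, hv, hχker⟩ := exists_eigen_character_ker_le φ hφ Q
  obtain ⟨χ', 𝔪', hχ', hmax, hmem⟩ := exists_maximal_over χ Q hχker
  refine ⟨v, χ.comp mk, χ'.comp mk, 𝔪', hv0, ?_, fun t => hχ' (mk t), hmax, ?_, ?_⟩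
  · intro t
    have h1 := hv (mk t)
    have h2 : φ (mk t) = ρ t := RingHom.kerLift_mk ρ t
    rw [h2] at h1
    exact h1
  · have h1 : ψ (MvPolynomial.C (p : ℤ)) ∈ Q := hQmem _ (by
      show MvPolynomial.aeval ab (MvPolynomial.C (p : ℤ)) = 0
      simp)
    have h2 := hmem _ h1
    have h3 : ψ (MvPolynomial.C (p : ℤ)) = ((p : ℕ) : T ⧸ RingHom.ker ρ) := by
      show mk (MvPolynomial.aeval τ (MvPolynomial.C (p : ℤ))) = _
      simp
    rw [h3, map_natCast] at h2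
    exact h2
  · intro ℓ z hz
    have h1 : ψ (MvPolynomial.X ℓ - MvPolynomial.C z) ∈ Q := hQmem _ (by
      show MvPolynomial.aeval ab (MvPolynomial.X ℓ - MvPolynomial.C z) = 0
      simp [hz])
    have h2 := hmem _ h1
    have h3 : ψ (MvPolynomial.X ℓ - MvPolynomial.C z) = mk (τ ℓ) - ((z : ℤ) : T ⧸ RingHom.ker ρ) := by
      show mk (MvPolynomial.aeval τ (MvPolynomial.X ℓ - MvPolynomial.C z)) = _
      simp
    rw [h3, map_sub, map_intCast] at h2
    exact h2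

theorem final_forms (M : ℕ) [NeZero M] (q : ℕ) (hq : q.Prime) (hqM : q ∣ M) (p : ℕ) (hp : p.Prime)
    (G : ℕ → Prop) (a : ℕ → ℤ)
    (Vnew : Submodule ℂ (CuspForm (Gamma0 M) 2))
    (hstab : ∀ t : TT M, ∀ v ∈ Vnew, phi M t v ∈ Vnew)
    (hU : ∀ v ∈ Vnew, CuspForm.heckeULin 2 hqM (CuspForm.heckeULin 2 hqM v) = v)
    (H : ∀ P : FreeAlgebra ℤ ℕ,
      (∀ v ∈ Vnew, FreeAlgebra.lift ℤ (S31.heckeFam M) (mask G P) v = 0) →
      FreeAlgebra.lift ℤ (fun ℓ => ((a ℓ : ℤ) : ZMod p)) (mask G P) = 0) :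
    ∃ (g : CuspForm (Gamma0 M) 2) (𝔪' : Ideal (integralClosure ℤ ℂ)),
      g.IsNormalizedEigenform ∧ 𝔪'.IsMaximal ∧ (p : integralClosure ℤ ℂ) ∈ 𝔪' ∧
      (∀ ℓ : ℕ, ℓ.Prime → ¬ ℓ ∣ M → G ℓ →
        ∃ b : integralClosure ℤ ℂ, (b : ℂ) = qCoeff g ℓ ∧
          b - ((a ℓ : ℤ) : integralClosure ℤ ℂ) ∈ 𝔪') ∧
      qCoeff g q ^ 2 = 1 := by
  classical
  have : Fact p.Prime := ⟨hp⟩
  have hfinT : Module.Finite ℤ (TT M) := S22.result M 2 ∅
  -- the restricted action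
  let ρ : TT M →+* Module.End ℂ Vnew :=
    { toFun := fun t => (phi M t).restrict (hstab t)
      map_one' := by
        apply LinearMap.ext; intro v; apply Subtype.ext
        simp [LinearMap.restrict_apply]
      map_mul' := by
        intro s t
        apply LinearMap.ext; intro v; apply Subtype.ext
        simp [LinearMap.restrict_apply, map_mul]
      map_zero' := by
        apply LinearMap.ext; intro v; apply Subtype.ext
        simp [LinearMap.restrict_apply]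
      map_add' := by
        intro s t
        apply LinearMap.ext; intro v; apply Subtype.ext
        simp [LinearMap.restrict_apply, map_add] }
  have hρ : ∀ (t : TT M) (v : Vnew), ((ρ t v : Vnew) : CuspForm (Gamma0 M) 2) = phi M t v :=
    fun t v => rfl
  let ab : ℕ → ZMod p := fun ℓ => if G ℓ then ((a ℓ : ℤ) : ZMod p) else 0
  let π : FreeAlgebra ℤ ℕ →ₐ[ℤ] MvPolynomial ℕ ℤ := FreeAlgebra.lift ℤ MvPolynomial.X
  have hψπ : ∀ P, MvPolynomial.aeval (tmask M G) (π P) = FreeAlgebra.lift ℤ (tmask M G) P := by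
    intro P
    have h : (MvPolynomial.aeval (tmask M G) : MvPolynomial ℕ ℤ →ₐ[ℤ] TT M).comp π =
        FreeAlgebra.lift ℤ (tmask M G) := by
      apply FreeAlgebra.hom_ext
      funext ℓ
      simp only [Function.comp_apply, AlgHom.comp_apply, FreeAlgebra.lift_ι_apply, π,
        MvPolynomial.aeval_X]
    exact DFunLike.congr_fun h P
  have hlamπ : ∀ P, MvPolynomial.aeval ab (π P) =
      FreeAlgebra.lift ℤ (fun ℓ => ((a ℓ : ℤ) : ZMod p)) (mask G P) := by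
    intro P
    rw [lift_mask]
    have h : (MvPolynomial.aeval ab : MvPolynomial ℕ ℤ →ₐ[ℤ] ZMod p).comp π =
        FreeAlgebra.lift ℤ (fun ℓ => if G ℓ then ((a ℓ : ℤ) : ZMod p) else 0) := by
      apply FreeAlgebra.hom_ext
      funext ℓ
      simp only [Function.comp_apply, AlgHom.comp_apply, FreeAlgebra.lift_ι_apply, π, ab,
        MvPolynomial.aeval_X]
    exact DFunLike.congr_fun h P
  obtain ⟨v, χ, χ', 𝔪', hv0, hv, hχ', hmax, hpm, hcong⟩ := ds_core ρ p (tmask M G) ab (by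
    intro r hr
    obtain ⟨P, rfl⟩ := freeToMv_surjective r
    rw [hlamπ]
    apply H
    intro v hv
    rw [hψπ] at hr
    have h3 := hρ (FreeAlgebra.lift ℤ (tmask M G) P) ⟨v, hv⟩
    rw [hr, phi_lift_tmask] at h3
    exact h3.symm)
  have hv0' : (v : CuspForm (Gamma0 M) 2) ≠ 0 := fun h => hv0 (Subtype.ext h)
  have hχ0 : ∀ t, phi M t (v : CuspForm (Gamma0 M) 2) = χ t • (v : CuspForm (Gamma0 M) 2) := by
    intro t
    have h3 := congrArg Subtype.val (hv t)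
    rw [hρ] at h3
    exact h3
  obtain ⟨g, hg, hgT, hgU⟩ := normalize_of_character M v hv0' χ hχ0
  refine ⟨g, 𝔪', hg, hmax, hpm, ?_, ?_⟩
  · intro ℓ hℓ hℓM hG
    have ht : tmask M G ℓ = CuspForm.heckeAlgebra.T hℓ hℓM (Set.notMem_empty ℓ) := by
      unfold tmask
      rw [dif_pos ⟨hG, hℓ, hℓM⟩]
    refine ⟨χ' (tmask M G ℓ), ?_, hcong ℓ (a ℓ) (if_pos hG)⟩
    rw [hχ', hgT ℓ hℓ hℓM, ht]
  · rw [hgU q hq hqM]
    have h1 := hU v v.2
    have e : CuspForm.heckeULin 2 hqM =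
        phi M (CuspForm.heckeAlgebra.U hq hqM (Set.notMem_empty q)) := rfl
    rw [e, hχ0, map_smul, hχ0, smul_smul] at h1
    have h2 : (χ (CuspForm.heckeAlgebra.U hq hqM (Set.notMem_empty q)) *
        χ (CuspForm.heckeAlgebra.U hq hqM (Set.notMem_empty q))) •
          (v : CuspForm (Gamma0 M) 2) = (1 : ℂ) • (v : CuspForm (Gamma0 M) 2) := by
      rw [h1, one_smul]
    have h3 := smul_left_injective ℂ hv0' h2
    rw [pow_two]
    exact h3

end Fermat.Agent.S41.FF
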