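import Fermat.Agent.S41.Defs

set_option autoImplicit false

/-!
# S41, task T7: the lattice algebra

From the chapter outputs `E1 … E8` to `HKill` (a polynomial in the good Hecke operators which kills `Vnew` vanishes at
`(a_ℓ(E) mod p)`).
-/

noncomputable section

namespace Fermat.Agent.S41

open AlgebraicCurve ModularCurve ModularCurve.Period CongruenceSubgroup ModularFormClass
open Fermat.Agent.S24 (Kb FN)
open Fermat.Agent.GES Fermat.Agent.NEW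
open scoped MatrixGroups

/-- an eigenfunctional evaluates polynomials in the operators. -/
theorem lift_eigenfunctional {H : Type*} [AddCommGroup H] {p : ℕ} (t : ℕ → Module.End ℤ H)
    (c : ℕ → ZMod p) (Lt : H →+ ZMod p) (h : ∀ ℓ x, Lt (t ℓ x) = c ℓ * Lt x)
    (P : FreeAlgebra ℤ ℕ) : ∀ x, Lt (FreeAlgebra.lift ℤ t P x) = FreeAlgebra.lift ℤ c P * Lt x := by
  induction P using FreeAlgebra.induction with
  | grade0 r =>
    intro x
    rw [AlgHom.commutes, AlgHom.commutes, Module.algebraMap_end_apply, map_zsmul, zsmul_eq_mul]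
    rfl
  | grade1 ℓ =>
    intro x
    rw [FreeAlgebra.lift_ι_apply, FreeAlgebra.lift_ι_apply, h]
  | mul a b ha hb =>
    intro x
    rw [map_mul, map_mul, Module.End.mul_apply, ha, hb, mul_assoc]
  | add a b ha hb =>
    intro x
    rw [map_add, map_add, LinearMap.add_apply, map_add, ha, hb, add_mul]

section main

variable (N q p : ℕ) [NeZero N] [NeZero q] [Fact p.Prime]

theorem p_nsmul_VN (M : ℕ) (x : VN M p) : p • x = 0 := by
  rw [← Nat.cast_smul_eq_nsmul (ZMod p), ZMod.natCast_self, zero_smul]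

omit [Fact p.Prime] in
theorem lat_nsmul_injective (M n : ℕ) (hn : n ≠ 0) :
    Function.Injective (fun x : S31.Lat M => n • x) := by
  intro x y hxy
  apply Subtype.ext
  refine AddMonoidHom.ext fun γ => ?_
  have h1 : (n • x).1 γ = (n • y).1 γ := by
    have := congrArg (fun z : S31.Lat M => z.1 γ) hxy
    exact this
  have h2 : n • (x.1 γ) = n • (y.1 γ) := h1
  rw [nsmul_eq_mul, nsmul_eq_mul] at h2
  exact mul_left_cancel₀ (by exact_mod_cast hn) h2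

/-- the abstract saturation argument. -/
theorem kills_sat (h3 : E3 N q p) (ht2c : T2c N q p) (Lt : S31.Lat (N * q) →+ ZMod p)
    (hR : ∀ u₁ u₂, Lt (rL N q u₁ u₂) = 0) (ℓ₀ : ℕ) (hℓ₀ : ℓ₀.Prime) (hℓ₀M : ¬ ℓ₀ ∣ N * q * p)
    (c : ZMod p) (hc : c ≠ ((ℓ₀ + 1 : ℕ) : ZMod p))
    (hT : ∀ h, Lt (S31.latT (N * q) ℓ₀ h) = c * Lt h) :
    ∀ (k : ℕ) (h : S31.Lat (N * q)), (∃ u₁ u₂, (p ^ k) • h = rL N q u₁ u₂) → Lt h = 0 := by
  have hp0 : p ≠ 0 := (Fact.out : p.Prime).ne_zero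
  have hℓ₀N : ¬ ℓ₀ ∣ N := fun hd => hℓ₀M (Dvd.dvd.mul_right (Dvd.dvd.mul_right hd q) p)
  intro k
  induction k with
  | zero =>
    rintro h ⟨u₁, u₂, hu⟩
    rw [pow_zero, one_smul] at hu
    rw [hu, hR]
  | succ k ih =>
    rintro h ⟨u₁, u₂, hu⟩
    obtain ⟨⟨v₁, hv₁⟩, ⟨v₂, hv₂⟩⟩ := h3 u₁ u₂ ⟨p ^ k • h, by rw [← hu, pow_succ', mul_smul]⟩ ℓ₀ hℓ₀ hℓ₀N
    have key : (p ^ k) • (S31.latT (N * q) ℓ₀ h - (ℓ₀ + 1) • h) = rL N q v₁ v₂ := by
      have hinj : Function.Injective (fun x : S31.Lat (N * q) => p • x) :=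
        lat_nsmul_injective (N * q) p hp0
      apply hinj
      show p • (p ^ k) • (S31.latT (N * q) ℓ₀ h - (ℓ₀ + 1) • h) = p • rL N q v₁ v₂
      have e1 : p • rL N q v₁ v₂ = rL N q (p • v₁) (p • v₂) := by
        simp only [rL, smul_add, map_nsmul]
      rw [e1, ← hv₁, ← hv₂]
      have e2 : rL N q (S31.latT N ℓ₀ u₁ - (ℓ₀ + 1) • u₁) (S31.latT N ℓ₀ u₂ - (ℓ₀ + 1) • u₂) =
          S31.latT (N * q) ℓ₀ (rL N q u₁ u₂) - (ℓ₀ + 1) • rL N q u₁ u₂ := by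
        simp only [rL, map_sub, map_nsmul, map_add, (ht2c ℓ₀ hℓ₀ hℓ₀M u₁).1,
          (ht2c ℓ₀ hℓ₀ hℓ₀M u₂).2, smul_add]
        abel
      rw [e2, ← hu, ← mul_smul, ← pow_succ', smul_sub, map_nsmul, smul_comm]
    have h0 := ih _ ⟨v₁, v₂, key⟩
    rw [map_sub, hT, map_nsmul, nsmul_eq_mul, ← sub_mul] at h0
    rcases mul_eq_zero.mp h0 with h0 | h0
    · exact absurd (sub_eq_zero.mp h0) hc
    · exact h0

/-- **T7**: the chapter outputs give `HKill`. -/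
theorem hkill (W : WeierstrassCurve ℤ) (h1 : E1 N q p) (h2 : E2 N q p) (h3 : E3 N q p)
    (ht2 : T2 N q p) (ht2c : T2c N q p) (h4 : E4 N q p) (h5 : E5 N q W p) (h6 : E6 N q W p)
    (h8 : E8 N q (Good W N q p)) : HKill N q (Good W N q p) W.apOfModel p := by
  classical
  have hp : p.Prime := Fact.out
  obtain ⟨x₀, ε, hx₀, hε, hx₀T, hx₀q⟩ := h5
  obtain ⟨ℓ₀, hG₀, hne⟩ := h6
  obtain ⟨e, hnd, hea, heb, hadj⟩ := h4
  obtain ⟨h1aa, h1bb, h1ab, h1ba⟩ := h1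
  have hGd : ∀ ℓ, Good W N q p ℓ → ¬ ℓ ∣ N * q * p := by
    intro ℓ hG hd
    rcases (Nat.Prime.dvd_mul hG.1).mp hd with hd | hd
    · exact hG.2.2.1 hd
    · exact hG.2.2.2 ((Nat.prime_dvd_prime_iff_eq hG.1 hp).mp hd)
  have hGN : ∀ ℓ, Good W N q p ℓ → ¬ ℓ ∣ N := fun ℓ hG hd => hG.2.2.1 (Dvd.dvd.mul_right hd q)
  set y₀ : VN (N * q) p := aS N q p x₀ - ε • bS N q p x₀ with hy₀
  -- `y₀ ≠ 0`
  have hy₀ne : y₀ ≠ 0 := by
    intro h0
    obtain ⟨u₀, hu₀⟩ := NV.kappa_surjective N p x₀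
    have hk : NV.kappa (N * q) p (rL N q u₀ (-ε • u₀)) = y₀ := by
      rw [rL, map_add, (ht2 u₀).1, (ht2 (-ε • u₀)).2, map_zsmul, map_zsmul, hu₀, hy₀, neg_smul,
        sub_eq_add_neg]
    rw [h0] at hk
    obtain ⟨h, hh⟩ := NV.kappa_ker (N * q) p _ hk
    obtain ⟨⟨u', hu'⟩, -⟩ := h3 u₀ (-ε • u₀) ⟨h, hh⟩ ℓ₀ hG₀.1 (hGN ℓ₀ hG₀)
    have h7 := congrArg (NV.kappa N p) hu'
    rw [map_sub, map_nsmul, map_nsmul, NV.kappa_latT N p ℓ₀ hG₀.1 (hGN ℓ₀ hG₀), hu₀, hx₀T ℓ₀ hG₀,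
      p_nsmul_VN, ← Nat.cast_smul_eq_nsmul (ZMod p), ← sub_smul] at h7
    rcases smul_eq_zero.mp h7 with h7 | h7
    · exact hne (sub_eq_zero.mp h7)
    · exact hx₀ h7
  have hεε : ε * ε = 1 := by rcases hε with rfl | rfl <;> norm_num
  -- `a_* y₀ = b_* y₀ = 0`
  have hay₀ : alphaV N q p y₀ = 0 := by
    rw [hy₀, map_sub, map_zsmul, h1aa, h1ab, hx₀q, Int.cast_smul_eq_zsmul, ← mul_smul,
      ← mul_assoc, hεε, one_mul, ← Nat.cast_smul_eq_nsmul ℤ]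
    push_cast
    exact sub_self _
  have hby₀ : betaV N q p y₀ = 0 := by
    rw [hy₀, map_sub, map_zsmul, h1bb, h1ba, hx₀q, Int.cast_smul_eq_zsmul,
      ← Nat.cast_smul_eq_nsmul ℤ, ← mul_smul]
    push_cast
    exact sub_self _
  -- `y₀` is an eigenvector
  have hy₀T : ∀ ℓ, Good W N q p ℓ → TV (N * q) p ℓ y₀ = (W.apOfModel ℓ) • y₀ := by
    intro ℓ hG
    have ha := (h2 ℓ hG.1 (hGd ℓ hG) x₀).1
    have hb := (h2 ℓ hG.1 (hGd ℓ hG) x₀).2
    rw [hx₀T ℓ hG, aP, Int.cast_smul_eq_zsmul, map_zsmul] at ha hb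
    rw [hy₀, map_sub, map_zsmul, ← ha, ← hb, smul_sub, smul_comm]
  obtain ⟨z₀, hz₀⟩ := hnd y₀ hy₀ne
  obtain ⟨h₀, hh₀⟩ := NV.kappa_surjective (N * q) p z₀
  set Lt : S31.Lat (N * q) →+ ZMod p := (e y₀).comp (NV.kappa (N * q) p) with hLt
  have hLt₀ : Lt h₀ ≠ 0 := by
    rw [hLt, AddMonoidHom.comp_apply, hh₀]
    exact hz₀
  have hR : ∀ u₁ u₂, Lt (rL N q u₁ u₂) = 0 := by
    intro u₁ u₂
    rw [hLt, AddMonoidHom.comp_apply, rL, map_add, map_add, (ht2 u₁).1, (ht2 u₂).2,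
      hea y₀ hay₀, heb y₀ hby₀, add_zero]
  have hT : ∀ ℓ, Good W N q p ℓ → ∀ h, Lt (S31.latT (N * q) ℓ h) = (W.apOfModel ℓ : ZMod p) * Lt h := by
    intro ℓ hG h
    rw [hLt, AddMonoidHom.comp_apply, AddMonoidHom.comp_apply,
      NV.kappa_latT (N * q) p ℓ hG.1 hG.2.2.1, ← hadj ℓ hG.1 (hGd ℓ hG), hy₀T ℓ hG, map_zsmul,
      AddMonoidHom.zsmul_apply, zsmul_eq_mul]
  have hsat := kills_sat N q p h3 ht2c Lt hR ℓ₀ hG₀.1 (hGd ℓ₀ hG₀) _ hne (hT ℓ₀ hG₀)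
  -- the conclusion
  intro P hP
  have hL4 := lift_eigenfunctional
    (fun ℓ => if Good W N q p ℓ then S31.latT (N * q) ℓ else 0)
    (fun ℓ => if Good W N q p ℓ then (W.apOfModel ℓ : ZMod p) else 0) Lt (by
      intro ℓ x
      by_cases hG : Good W N q p ℓ
      · simp only [if_pos hG]
        exact hT ℓ hG x
      · simp only [if_neg hG, LinearMap.zero_apply, map_zero, zero_mul]) P h₀
  rw [← lift_mask, ← lift_mask] at hL4
  obtain ⟨n, hn, u₁, u₂, hu⟩ := h8 P hP h₀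
  set X := FreeAlgebra.lift ℤ (S31.latT (N * q)) (mask (Good W N q p) P) h₀ with hX
  have hX0 : Lt X = 0 := by
    have hfin : FiniteMultiplicity (p : ℤ) n := by
      rw [Int.finiteMultiplicity_iff]
      exact ⟨by simpa using hp.ne_one, hn⟩
    obtain ⟨c, hc, hpc⟩ := hfin.exists_eq_pow_mul_and_not_dvd
    generalize multiplicity (p : ℤ) n = k at hc
    have h9 : Lt (c • X) = 0 := by
      apply hsat k (c • X) ⟨u₁, u₂, ?_⟩
      rw [← hu, hc, mul_smul, ← Nat.cast_smul_eq_nsmul ℤ]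
      push_cast
      rfl
    rw [map_zsmul, zsmul_eq_mul] at h9
    rcases mul_eq_zero.mp h9 with h9 | h9
    · exact absurd ((ZMod.intCast_zmod_eq_zero_iff_dvd c p).mp h9) hpc
    · exact h9
  rw [hX0] at hL4
  rcases mul_eq_zero.mp hL4.symm with h | h
  · exact h
  · exact absurd h hLt₀

end main

end Fermat.Agent.S41
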